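/-
Programme MAZ (S15), brick L-r-CHI (668), part 3 (helper97): **Kummer generators of level cocycles.**

`V` a `G_ℚ`-module killed by `r`, `φ : V → Qbˣ` additive-to-multiplicative and equivariant (so `φ` has values
in `μ_r`).  Every level cocycle `c : G_ℚ → V` is of the form `φ (c σ) = σ α / α` for some `α ∈ Qbˣ`
(Hilbert 90 at a finite level, `PT/BR/InfGalois13.hilbert90_level`), and `α ^ r` is a rational number
(`S13/GalRat.exists_ratCast_of_fixed`).
-/
import Mathlib
import Fermat.Agent.MAZ.FlatCond42.System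
import Fermat.Agent.PT.BR.InfGalois13
import Fermat.Agent.S13.GalRat

set_option autoImplicit false

namespace Fermat.Agent.MAZ.BaseChi97

open Fermat.Agent.Flat44 Fermat.Agent.MAZ.SelCoh42 Fermat.Agent.MAZ.FlatCond42

local instance isAlgClosureQb97 : IsAlgClosure ℚ Qb := ⟨inferInstance, inferInstance⟩
local instance isGaloisQb97 : IsGalois ℚ Qb := IsAlgClosure.isGalois ℚ Qb

variable {V : Type} [AddCommGroup V]

/-! ### Additive-to-multiplicative maps -/

section Phi

variable (φ : V → Qbˣ) (hφ_add : ∀ x y, φ (x + y) = φ x * φ y)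

/-- `φ` as an additive map into `Additive Qbˣ`. -/
noncomputable def phiHom : V →+ Additive Qbˣ :=
  AddMonoidHom.mk' (fun x => Additive.ofMul (φ x)) fun x y => by
    rw [hφ_add]
    rfl

include hφ_add

theorem phi_zero : φ 0 = 1 := map_zero (phiHom φ hφ_add)

theorem phi_nsmul (n : ℕ) (x : V) : φ (n • x) = φ x ^ n := map_nsmul (phiHom φ hφ_add) n x

theorem phi_sub (x y : V) : φ (x - y) = φ x / φ y := map_sub (phiHom φ hφ_add) x y

theorem phi_pow_eq_one {r : ℕ} (hV : ∀ x : V, r • x = 0) (x : V) : φ x ^ r = 1 := by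
  rw [← phi_nsmul φ hφ_add, hV, phi_zero φ hφ_add]

theorem phi_coe_pow_eq_one {r : ℕ} (hV : ∀ x : V, r • x = 0) (x : V) : ((φ x : Qbˣ) : Qb) ^ r = 1 := by
  rw [← Units.val_pow_eq_pow_val, phi_pow_eq_one φ hφ_add hV, Units.val_one]

end Phi

variable [DistribMulAction GQ V]

/-! ### Hilbert 90 -/

/-- **Kummer generator** of a level cocycle with values in (a module embedded in) `μ_r`. -/
theorem exists_kummer_generator {r : ℕ} (hr : 0 < r) (hV : ∀ x : V, r • x = 0)
    (φ : V → Qbˣ) (hφ_add : ∀ x y, φ (x + y) = φ x * φ y)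
    (hφ_eq : ∀ (σ : GQ) (x : V), ((φ (σ • x) : Qbˣ) : Qb) = σ ((φ x : Qbˣ) : Qb))
    (c : Z1 galLevel V) :
    ∃ α : Qbˣ, ∀ σ : GQ, ((φ (c.1 σ) : Qbˣ) : Qb) * (α : Qb) = σ (α : Qb) := by
  classical
  obtain ⟨U, ⟨F, hF, rfl⟩, hU⟩ := c.2.2
  have : FiniteDimensional ℚ F := hF
  -- the field generated by `F` and the `r`-th roots of unity
  set R : Finset Qb := (Polynomial.nthRoots r (1 : Qb)).toFinset with hR
  have hRmem : ∀ x : Qb, x ^ r = 1 → x ∈ (R : Set Qb) := by
    intro x hx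
    rw [Finset.mem_coe, hR, Multiset.mem_toFinset, Polynomial.mem_nthRoots hr]
    exact hx
  have : FiniteDimensional ℚ (IntermediateField.adjoin ℚ (R : Set Qb)) :=
    IntermediateField.finiteDimensional_adjoin fun x _ => Algebra.IsIntegral.isIntegral x
  set E : IntermediateField ℚ Qb := F ⊔ IntermediateField.adjoin ℚ (R : Set Qb) with hE
  have : FiniteDimensional ℚ E := IntermediateField.finiteDimensional_sup _ _
  have hEF : E.fixingSubgroup ≤ F.fixingSubgroup :=
    IntermediateField.fixingSubgroup_antitone le_sup_left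
  obtain ⟨β, hβ⟩ := Fermat.Agent.PT.BR.InfGalois13.hilbert90_level (K := ℚ) (Ω := Qb) ⊤ E
    (fun σ => φ (c.1 σ))
    (fun g s hs => by
      show φ (c.1 (g * s)) = φ (c.1 g)
      rw [Z1.map_mul, hU s (hEF hs), smul_zero, add_zero])
    (fun g => by
      have h1 : ((φ (c.1 g) : Qbˣ) : Qb) ∈ IntermediateField.adjoin ℚ (R : Set Qb) :=
        IntermediateField.subset_adjoin _ _ (hRmem _ (phi_coe_pow_eq_one φ hφ_add hV _))
      exact (le_sup_right : _ ≤ E) h1)
    (fun n _ n' _ => by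
      apply Units.ext
      show ((φ (c.1 (n * n')) : Qbˣ) : Qb) = ((n • φ (c.1 n') * φ (c.1 n) : Qbˣ) : Qb)
      rw [Z1.map_mul, hφ_add, Units.val_mul, Units.val_mul, hφ_eq, AlgEquiv.smul_units_def,
        Units.coe_map, mul_comm]
      rfl)
  refine ⟨β, fun σ => ?_⟩
  have h1 := hβ σ (Subgroup.mem_top σ)
  have h2 : φ (c.1 σ) * β = σ • β := by
    rw [h1, div_mul_cancel]
  have h3 := congrArg (fun u : Qbˣ => (u : Qb)) h2
  simp only [Units.val_mul, AlgEquiv.smul_units_def, Units.coe_map, MonoidHom.coe_coe] at h3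
  exact h3

omit [DistribMulAction GQ V] in
/-- The `r`-th power of a Kummer generator is a nonzero rational number. -/
theorem exists_rat_of_kummer {r : ℕ} (hV : ∀ x : V, r • x = 0)
    (φ : V → Qbˣ) (hφ_add : ∀ x y, φ (x + y) = φ x * φ y) (c : GQ → V) (α : Qbˣ)
    (hα : ∀ σ : GQ, ((φ (c σ) : Qbˣ) : Qb) * (α : Qb) = σ (α : Qb)) :
    ∃ a : ℚ, a ≠ 0 ∧ (α : Qb) ^ r = (a : Qb) := by
  obtain ⟨a, ha⟩ := Fermat.Agent.S13.GalRat.exists_ratCast_of_fixed ((α : Qb) ^ r) (by
    intro σ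
    rw [map_pow, ← hα σ, mul_pow, phi_coe_pow_eq_one φ hφ_add hV, one_mul])
  refine ⟨a, ?_, ha.symm⟩
  rintro rfl
  rw [Rat.cast_zero] at ha
  exact pow_ne_zero r (Units.ne_zero α) ha.symm

end Fermat.Agent.MAZ.BaseChi97
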