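/-
Programme MAZ (S15), brick L-r-CHI (668), part 2 (helper97): **rational numbers all of whose valuations are
divisible by an odd `r` are `r`-th powers.**  Mathlib only.
-/
import Mathlib

set_option autoImplicit false

namespace Fermat.Agent.MAZ.BaseChi97

/-- A nonzero natural number all of whose prime exponents are divisible by `r` is an `r`-th power. -/
theorem nat_eq_pow_of_dvd_factorization {r : ℕ} {m : ℕ} (hm : m ≠ 0)
    (h : ∀ q : ℕ, q.Prime → r ∣ m.factorization q) : ∃ b : ℕ, b ≠ 0 ∧ m = b ^ r := by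
  classical
  set f : ℕ →₀ ℕ := m.factorization.mapRange (· / r) (Nat.zero_div r) with hf
  have hsupp : ∀ p ∈ f.support, p.Prime := by
    intro p hp
    have h1 : p ∈ m.factorization.support := Finsupp.support_mapRange hp
    rw [Nat.support_factorization] at h1
    exact Nat.prime_of_mem_primeFactors h1
  have hb0 : f.prod (· ^ ·) ≠ 0 := by
    rw [Finsupp.prod_ne_zero_iff]
    intro p hp
    exact pow_ne_zero _ (hsupp p hp).ne_zero
  refine ⟨f.prod (· ^ ·), hb0, ?_⟩
  apply Nat.eq_of_factorization_eq hm (pow_ne_zero _ hb0)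
  intro p
  rw [Nat.factorization_pow, Nat.prod_pow_factorization_eq_self hsupp, Finsupp.smul_apply, hf,
    Finsupp.mapRange_apply, smul_eq_mul]
  by_cases hp : p.Prime
  · exact (Nat.mul_div_cancel' (h p hp)).symm
  · rw [Nat.factorization_eq_zero_of_not_prime m hp, Nat.zero_div, mul_zero]

/-- A nonzero rational number all of whose `q`-adic valuations are divisible by the odd number `r` is an
`r`-th power. -/
theorem exists_pow_eq_of_dvd_padicValRat {r : ℕ} (hr : Odd r) (a : ℚ) (ha : a ≠ 0)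
    (h : ∀ q : ℕ, q.Prime → (r : ℤ) ∣ padicValRat q a) : ∃ b : ℚ, b ≠ 0 ∧ a = b ^ r := by
  have hnum0 : a.num ≠ 0 := Rat.num_ne_zero.mpr ha
  have hn0 : a.num.natAbs ≠ 0 := Int.natAbs_ne_zero.mpr hnum0
  have hd0 : a.den ≠ 0 := a.den_ne_zero
  have hcop : Nat.Coprime a.num.natAbs a.den := a.reduced
  -- divisibility of the exponents of numerator and denominator
  have hboth : ∀ q : ℕ, q.Prime →
      r ∣ a.num.natAbs.factorization q ∧ r ∣ a.den.factorization q := by
    intro q hq
    have : Fact q.Prime := ⟨hq⟩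
    have h1 := h q hq
    unfold padicValRat at h1
    rw [padicValInt] at h1
    rw [Nat.factorization_def _ hq, Nat.factorization_def _ hq]
    by_cases hqd : q ∣ a.den
    · have hqn : ¬ q ∣ a.num.natAbs := fun hqn =>
        hq.one_lt.ne' (Nat.eq_one_of_dvd_coprimes hcop hqn hqd)
      have h2 : padicValNat q a.num.natAbs = 0 := padicValNat.eq_zero_of_not_dvd hqn
      rw [h2] at h1 ⊢
      refine ⟨dvd_zero r, ?_⟩
      rw [Nat.cast_zero, zero_sub, dvd_neg] at h1
      exact Int.natCast_dvd_natCast.mp h1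
    · have h2 : padicValNat q a.den = 0 := padicValNat.eq_zero_of_not_dvd hqd
      rw [h2] at h1 ⊢
      refine ⟨?_, dvd_zero r⟩
      rw [Nat.cast_zero, sub_zero] at h1
      exact Int.natCast_dvd_natCast.mp h1
  obtain ⟨b1, hb10, hb1⟩ := nat_eq_pow_of_dvd_factorization hn0 fun q hq => (hboth q hq).1
  obtain ⟨b2, hb20, hb2⟩ := nat_eq_pow_of_dvd_factorization hd0 fun q hq => (hboth q hq).2
  have hb1Q : (b1 : ℚ) ≠ 0 := Nat.cast_ne_zero.mpr hb10
  have hb2Q : (b2 : ℚ) ≠ 0 := Nat.cast_ne_zero.mpr hb20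
  have hadef : a = (a.num : ℚ) / (a.den : ℚ) := (Rat.num_div_den a).symm
  have hden : (a.den : ℚ) = (b2 : ℚ) ^ r := by
    rw [hb2]
    push_cast
    rfl
  rcases Int.natAbs_eq a.num with hs | hs
  · refine ⟨(b1 : ℚ) / (b2 : ℚ), div_ne_zero hb1Q hb2Q, ?_⟩
    have hnum : (a.num : ℚ) = (b1 : ℚ) ^ r := by
      rw [hs, hb1]
      push_cast
      rfl
    rw [hadef, hnum, hden, div_pow]
  · refine ⟨-((b1 : ℚ) / (b2 : ℚ)), neg_ne_zero.mpr (div_ne_zero hb1Q hb2Q), ?_⟩
    have hnum : (a.num : ℚ) = -(b1 : ℚ) ^ r := by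
      rw [hs, hb1]
      push_cast
      rfl
    rw [hr.neg_pow, hadef, hnum, hden, div_pow, neg_div]

end Fermat.Agent.MAZ.BaseChi97
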