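/-
Programme MAZ (S15), brick L-r-CHI (668), part 1 (helper97): **valuations of inertia-fixed radicals.**

`A` a valuation subring of `Qb = AlgebraicClosure ℚ` over the prime `q`.  If `β ∈ Qb` is fixed by the
inertia group of `A` and `β ^ r = a ∈ ℚˣ`, then `r ∣ v_q(a)`.

Route: `ES/P36/UnrFixed1.div_natCast_mem_of_fixed` (an inertia-fixed element of the maximal ideal of `A`
is divisible by `q` in `A`) + `S13/GalRat.valuation_ratCast_eq_zpow`, induction on `v_q(a)`.
-/
import Mathlib
import Fermat.Agent.ES.P36.UnrFixed1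
import Fermat.Agent.S13.GalRat

set_option autoImplicit false

namespace Fermat.Agent.MAZ.BaseChi97

local notation "Qb" => AlgebraicClosure ℚ

variable (A : ValuationSubring Qb) {q : ℕ}

/-- Natural-number core: `v_q(a) = n ≥ 0`. -/
theorem dvd_of_fixed_nat (hq : q.Prime) (hA : A.LiesOverPrime q) {r : ℕ} (hr : 0 < r) :
    ∀ (n : ℕ) (a : ℚ) (β : Qb), a ≠ 0 → padicValRat q a = (n : ℤ) → β ^ r = (a : Qb) →
      (∀ τ ∈ A.inertiaSubgroupIn ℚ, τ β = β) → r ∣ n := by
  have : Fact q.Prime := ⟨hq⟩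
  have hq0 : (q : Qb) ≠ 0 := Nat.cast_ne_zero.mpr hq.ne_zero
  have hπ1 : A.valuation (q : Qb) < 1 := (ValuationSubring.mem_nonunits_iff A).mp hA
  have hπ0 : A.valuation (q : Qb) ≠ 0 := (Valuation.ne_zero_iff _).mpr hq0
  have hπpos : 0 < A.valuation (q : Qb) := zero_lt_iff.mpr hπ0
  intro n
  induction n using Nat.strong_induction_on with
  | _ n ih =>
    intro a β ha hn hβ hfix
    have hva : A.valuation (a : Qb) = A.valuation (q : Qb) ^ n := by
      rw [Fermat.Agent.S13.GalRat.valuation_ratCast_eq_zpow A hq hA ha, hn, zpow_natCast]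
    have hvβ : A.valuation β ^ r = A.valuation (q : Qb) ^ n := by
      rw [← map_pow, hβ, hva]
    by_cases hlt : A.valuation β < 1
    · -- `β` is a non-unit: divide by `q`
      have hβnu : β ∈ A.nonunits := (ValuationSubring.mem_nonunits_iff A).mpr hlt
      have hdiv := Fermat.Agent.ES.P36.UnrFixed1.div_natCast_mem_of_fixed A hq hA β hfix hβnu
      have hle : A.valuation (β / (q : Qb)) ≤ 1 := (ValuationSubring.valuation_le_one_iff A _).mpr hdiv
      have hβle : A.valuation β ≤ A.valuation (q : Qb) := by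
        have h1 : β = β / (q : Qb) * (q : Qb) := by field_simp
        rw [h1, map_mul]
        calc A.valuation (β / (q : Qb)) * A.valuation (q : Qb)
            ≤ 1 * A.valuation (q : Qb) := mul_le_mul_left hle _
          _ = A.valuation (q : Qb) := one_mul _
      -- `r ≤ n`
      have hrn : r ≤ n := by
        by_contra hcon
        push Not at hcon
        have h1 : A.valuation (q : Qb) ^ r < A.valuation (q : Qb) ^ n :=
          pow_lt_pow_right_of_lt_one₀ hπpos hπ1 hcon
        have h2 : A.valuation (q : Qb) ^ n ≤ A.valuation (q : Qb) ^ r := by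
          rw [← hvβ]
          exact pow_le_pow_left₀ zero_le hβle r
        exact absurd h1 (not_lt.mpr h2)
      -- apply the induction hypothesis to `a / q ^ r`, `β / q`
      have ha' : a / (q : ℚ) ^ r ≠ 0 :=
        div_ne_zero ha (pow_ne_zero _ (Nat.cast_ne_zero.mpr hq.ne_zero))
      have hn' : padicValRat q (a / (q : ℚ) ^ r) = ((n - r : ℕ) : ℤ) := by
        rw [padicValRat.div ha (pow_ne_zero _ (Nat.cast_ne_zero.mpr hq.ne_zero)),
          padicValRat.pow, padicValRat.self hq.one_lt, hn,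
          Nat.cast_sub hrn]
        ring
      have hβ' : (β / (q : Qb)) ^ r = ((a / (q : ℚ) ^ r : ℚ) : Qb) := by
        rw [div_pow, hβ]
        push_cast
        rfl
      have hfix' : ∀ τ ∈ A.inertiaSubgroupIn ℚ, τ (β / (q : Qb)) = β / (q : Qb) := by
        intro τ hτ
        rw [map_div₀, hfix τ hτ, map_natCast]
      have hdvd := ih (n - r) (by omega) (a / (q : ℚ) ^ r) (β / (q : Qb)) ha' hn' hβ' hfix'
      have h3 : n = (n - r) + r := by omega
      rw [h3]
      exact dvd_add hdvd dvd_rfl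
    · -- `β` is a unit or outside `A`: then `n = 0`
      rw [not_lt] at hlt
      have h1 : 1 ≤ A.valuation (q : Qb) ^ n := by
        rw [← hvβ]
        exact one_le_pow₀ hlt
      rcases Nat.eq_zero_or_pos n with h0 | hpos
      · rw [h0]
        exact dvd_zero r
      · exact absurd (pow_lt_one₀ zero_le hπ1 hpos.ne') (not_lt.mpr h1)

/-- **Inertia-fixed radicals**: if `β ^ r = a ∈ ℚˣ` and `β` is fixed by the inertia group of a valuation
subring over `q`, then `r ∣ v_q(a)`. -/
theorem dvd_padicValRat_of_fixed (hq : q.Prime) (hA : A.LiesOverPrime q) {r : ℕ} (hr : 0 < r)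
    (a : ℚ) (ha : a ≠ 0) (β : Qb) (hβ : β ^ r = (a : Qb))
    (hfix : ∀ τ ∈ A.inertiaSubgroupIn ℚ, τ β = β) : (r : ℤ) ∣ padicValRat q a := by
  have : Fact q.Prime := ⟨hq⟩
  rcases le_total 0 (padicValRat q a) with h | h
  · obtain ⟨n, hn⟩ := Int.eq_ofNat_of_zero_le h
    rw [hn]
    exact Int.natCast_dvd_natCast.mpr (dvd_of_fixed_nat A hq hA hr n a β ha hn hβ hfix)
  · have h' : 0 ≤ padicValRat q a⁻¹ := by
      rw [padicValRat.inv]
      exact neg_nonneg.mpr h
    obtain ⟨n, hn⟩ := Int.eq_ofNat_of_zero_le h'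
    have hβ' : β⁻¹ ^ r = ((a⁻¹ : ℚ) : Qb) := by
      rw [inv_pow, hβ]
      push_cast
      rfl
    have hfix' : ∀ τ ∈ A.inertiaSubgroupIn ℚ, τ β⁻¹ = β⁻¹ := by
      intro τ hτ
      rw [map_inv₀, hfix τ hτ]
    have hd := dvd_of_fixed_nat A hq hA hr n a⁻¹ β⁻¹ (inv_ne_zero ha) hn hβ' hfix'
    have h2 : padicValRat q a = -(n : ℤ) := by
      rw [← hn, padicValRat.inv, neg_neg]
    rw [h2]
    exact (dvd_neg).mpr (Int.natCast_dvd_natCast.mpr hd)

end Fermat.Agent.MAZ.BaseChi97
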