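/-
Programme MAZ (S15), brick L-r-CHI (668), main file (helper97): **the cyclotomic base case of the Selmer
inequality.**

`r` an odd prime, `V` a `G_ℚ`-module killed by `r` which embeds equivariantly into `μ_r ⊂ Qbˣ`
(`φ : V → Qbˣ`, additive-to-multiplicative, injective, equivariant).  A level cocycle `c : G_ℚ → V` which is

* a coboundary on SOME inertia group over every prime `q ≠ r` (i.e. its class is unramified there), and
* flat at `r` (`IsFlatCochain r N c`, `r ∣ N`),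

is a coboundary: `H¹_S(ℚ, μ_r) = 0` for `r` odd (`sel_chi_eq_bot_of_localF4`).

Proof: Hilbert 90 gives `φ (c σ) = σ α / α`, `a := α ^ r ∈ ℚˣ` (`H90.lean`); unramified at `q ≠ r` gives
`r ∣ v_q(a)` (`Val.lean`); flat at `r` gives `r ∣ v_r(a)` — this is the LOCAL input `LocalF4 r` (brick
L-r-F4, helper58), taken here as an explicit hypothesis; so `a = b ^ r` (`Power.lean`, `r` odd), `α / b ∈ μ_r`
and `c` is the coboundary of the corresponding element of `V`.
-/
import Mathlib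
import Fermat.Agent.MAZ.BaseChi97.Val
import Fermat.Agent.MAZ.BaseChi97.Power
import Fermat.Agent.MAZ.BaseChi97.H90

set_option autoImplicit false

namespace Fermat.Agent.MAZ.BaseChi97

open Fermat.Agent.Flat44 Fermat.Agent.MAZ.SelCoh42 Fermat.Agent.MAZ.FlatCond42

/-- **The local input (brick L-r-F4).**  If the extension module `E_c = V × ℤ/r` of the Kummer cocycle of
`a = α ^ r ∈ ℚˣ` (with `V ↪ μ_r`) has a finite flat model over `ℤ_(r)`, then `r ∣ v_r(a)`. -/
def LocalF4 (r : ℕ) : Prop :=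
  ∀ (V : Type) [AddCommGroup V] [DistribMulAction GQ V], (∀ x : V, r • x = 0) →
  ∀ (φ : V → Qbˣ), Function.Injective φ → (∀ x y, φ (x + y) = φ x * φ y) →
    (∀ (σ : GQ) (x : V), ((φ (σ • x) : Qbˣ) : Qb) = σ ((φ x : Qbˣ) : Qb)) →
  ∀ (c : Z1 galLevel V) (a : ℚ) (α : Qbˣ), a ≠ 0 → (α : Qb) ^ r = (a : Qb) →
    (∀ σ : GQ, ((φ (c.1 σ) : Qbˣ) : Qb) * (α : Qb) = σ (α : Qb)) →
    IsFlatCochain r r c.1 → (r : ℤ) ∣ padicValRat r a

variable {V : Type} [AddCommGroup V] [DistribMulAction GQ V]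

/-- Reduction of the coefficient ring of the extension module: `E_c` over `ℤ/N` surjects onto `E_c` over
`ℤ/r` when `r ∣ N` and `r` kills `V`. -/
theorem isFlatCochain_of_dvd {p r N : ℕ} [NeZero N] [NeZero r] (hrN : r ∣ N)
    (hV : ∀ x : V, r • x = 0) {c : GQ → V} (h : IsFlatCochain p N c) : IsFlatCochain p r c := by
  have hval : ∀ a : ZMod N, ∀ y : V, (ZMod.castHom hrN (ZMod r) a).val • y = a.val • y := by
    intro a y
    have h1 : (ZMod.castHom hrN (ZMod r) a).val = a.val % r := by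
      rw [ZMod.castHom_apply, ← ZMod.natCast_val, ZMod.val_natCast]
    rw [h1]
    conv_rhs => rw [← Nat.mod_add_div a.val r]
    rw [add_nsmul, mul_nsmul, hV, smul_zero, add_zero]
  let g : V × ZMod N →+ V × ZMod r :=
    { toFun := fun e => (e.1, ZMod.castHom hrN (ZMod r) e.2)
      map_zero' := by
        apply Prod.ext
        · rfl
        · exact map_zero _
      map_add' := fun e e' => by
        apply Prod.ext
        · rfl
        · exact map_add _ e.2 e'.2 }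
  refine hasFlatModel_of_surjective h g (fun e => ⟨(e.1, (e.2.val : ZMod N)), ?_⟩) fun σ e => ?_
  · apply Prod.ext
    · rfl
    · show ZMod.castHom hrN (ZMod r) ((e.2.val : ZMod N)) = e.2
      rw [map_natCast, ZMod.natCast_zmod_val]
  · apply Prod.ext
    · show σ • e.1 + e.2.val • c σ = σ • e.1 + (ZMod.castHom hrN (ZMod r) e.2).val • c σ
      rw [hval]
    · rfl

/-- **L-r-CHI, embedding form.**  `H¹_S(ℚ, V) = 0` for `V ↪ μ_r`, `r` odd, given the local input
`LocalF4 r`. -/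
theorem sel_chi_eq_bot_of_localF4 (r : ℕ) [Fact r.Prime] (hr2 : r ≠ 2) (hF4 : LocalF4 r)
    (N : ℕ) [NeZero N] (hrN : r ∣ N) (hV : ∀ x : V, r • x = 0)
    (φ : V → Qbˣ) (hφ_inj : Function.Injective φ) (hφ_add : ∀ x y, φ (x + y) = φ x * φ y)
    (hφ_eq : ∀ (σ : GQ) (x : V), ((φ (σ • x) : Qbˣ) : Qb) = σ ((φ x : Qbˣ) : Qb))
    (c : Z1 galLevel V)
    (hunr : ∀ q : ℕ, q.Prime → q ≠ r → ∃ A : ValuationSubring Qb, A.LiesOverPrime q ∧
      ∃ v : V, ∀ σ ∈ A.inertiaSubgroupIn ℚ, c.1 σ = σ • v - v)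
    (hflat : IsFlatCochain r N c.1) :
    ∃ v : V, ∀ σ : GQ, c.1 σ = σ • v - v := by
  have hr : r.Prime := Fact.out
  have hrpos : 0 < r := hr.pos
  have : NeZero r := ⟨hr.ne_zero⟩
  have hrodd : Odd r := hr.odd_of_ne_two hr2
  -- Kummer generator
  obtain ⟨α, hα⟩ := exists_kummer_generator hrpos hV φ hφ_add hφ_eq c
  obtain ⟨a, ha0, ha⟩ := exists_rat_of_kummer hV φ hφ_add c.1 α hα
  -- all valuations of `a` are divisible by `r`
  have hdvd : ∀ q : ℕ, q.Prime → (r : ℤ) ∣ padicValRat q a := by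
    intro q hq
    by_cases hqr : q = r
    · subst hqr
      exact hF4 V hV φ hφ_inj hφ_add hφ_eq c a α ha0 ha hα (isFlatCochain_of_dvd hrN hV hflat)
    · obtain ⟨A, hA, v, hv⟩ := hunr q hq hqr
      have hφv0 : ((φ v : Qbˣ) : Qb) ≠ 0 := Units.ne_zero _
      refine dvd_padicValRat_of_fixed A hq hA hrpos a ha0 ((α : Qb) * ((φ v : Qbˣ) : Qb)⁻¹) ?_ ?_
      · rw [mul_pow, inv_pow, phi_coe_pow_eq_one φ hφ_add hV, inv_one, mul_one, ha]
      · intro τ hτ
        have h1 : ((φ (c.1 τ) : Qbˣ) : Qb) = τ ((φ v : Qbˣ) : Qb) * ((φ v : Qbˣ) : Qb)⁻¹ := by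
          rw [hv τ hτ, phi_sub φ hφ_add, Units.val_div_eq_div_val, hφ_eq, div_eq_mul_inv]
        have hτφ0 : τ ((φ v : Qbˣ) : Qb) ≠ 0 := (map_ne_zero _).mpr hφv0
        rw [map_mul, map_inv₀, ← hα τ, h1]
        field_simp
  -- `a` is an `r`-th power
  obtain ⟨b, hb0, hab⟩ := exists_pow_eq_of_dvd_padicValRat hrodd a ha0 hdvd
  have hbQ0 : ((b : ℚ) : Qb) ≠ 0 := Rat.cast_ne_zero.mpr hb0
  -- `ε = α / b` is an `r`-th root of unity
  set ε : Qbˣ := α * (Units.mk0 ((b : ℚ) : Qb) hbQ0)⁻¹ with hε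
  have hεr : ε ^ r = 1 := by
    apply Units.ext
    rw [hε, mul_pow, inv_pow, Units.val_mul, Units.val_pow_eq_pow_val, Units.val_inv_eq_inv_val,
      Units.val_pow_eq_pow_val, Units.val_mk0, ha, hab, Units.val_one]
    push_cast
    exact mul_inv_cancel₀ (pow_ne_zero _ hbQ0)
  have hεσ : ∀ σ : GQ, ((φ (c.1 σ) : Qbˣ) : Qb) * (ε : Qb) = σ (ε : Qb) := by
    intro σ
    rw [hε, Units.val_mul, Units.val_inv_eq_inv_val, Units.val_mk0, map_mul, map_inv₀, ← hα σ,
      map_ratCast, mul_assoc]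
  -- is `ε` in the image of `φ`?
  by_cases hnt : ∃ x : V, x ≠ 0
  · obtain ⟨x, hx⟩ := hnt
    have hζ1 : φ x ≠ 1 := by
      intro h1
      apply hx
      apply hφ_inj
      rw [h1, phi_zero φ hφ_add]
    have hζr : φ x ^ r = 1 := phi_pow_eq_one φ hφ_add hV x
    have hord : orderOf (φ x) = r := by
      have h1 : orderOf (φ x) ∣ r := orderOf_dvd_of_pow_eq_one hζr
      rcases (Nat.dvd_prime hr).mp h1 with h2 | h2
      · exact absurd (orderOf_eq_one_iff.mp h2) hζ1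
      · exact h2
    have hprim : IsPrimitiveRoot (φ x) r := hord ▸ IsPrimitiveRoot.orderOf (φ x)
    have hprim' : IsPrimitiveRoot ((φ x : Qbˣ) : Qb) r := IsPrimitiveRoot.coe_units_iff.mpr hprim
    have hεr' : ((ε : Qbˣ) : Qb) ^ r = 1 := by
      rw [← Units.val_pow_eq_pow_val, hεr, Units.val_one]
    obtain ⟨i, -, hi⟩ := hprim'.eq_pow_of_pow_eq_one hεr'
    refine ⟨i • x, fun σ => ?_⟩
    have hv : φ (i • x) = ε := by
      apply Units.ext
      rw [phi_nsmul φ hφ_add, Units.val_pow_eq_pow_val, hi]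
    apply hφ_inj
    apply Units.ext
    rw [phi_sub φ hφ_add, Units.val_div_eq_div_val, hφ_eq, hv, ← hεσ σ, mul_div_assoc,
      div_self (Units.ne_zero ε), mul_one]
  · -- `V = 0`
    push Not at hnt
    exact ⟨0, fun σ => by rw [hnt (c.1 σ), smul_zero, sub_zero]⟩

end Fermat.Agent.MAZ.BaseChi97
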