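/-
Programme MAZ (S15), brick L-r-CHI (668), consumer forms (helper97).

The simple object "`V` of order `r` on which `G_ℚ` acts through the mod-`r` cyclotomic character"
(as produced by F-SIMPLE, `MAZ/Simple14/Simple.lean`, with `χ = ExtCitation.cycloChar r`) embeds
equivariantly into `μ_r ⊂ Qbˣ`; hence `BaseChi97.sel_chi_eq_bot_of_localF4` applies:

* `sel_chi_eq_bot_of_char`     : abstract exponent function `k : G_ℚ → ℕ` with `σ ζ = ζ ^ k σ` on `μ_r`;
* `sel_chi_eq_bot_of_cycloExp` : `k = ExtCitation.cycloExp r` (Prelude);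
* `sel_chi_eq_bot_of_cycloExp_vanish` : the hypothesis "unramified at `q ≠ r`" in the form "the cocycle
  vanishes on an inertia group over `q`".
-/
import Mathlib
import Fermat.Agent.MAZ.BaseChi97.Main
import Fermat.Agent.S14.Fields

set_option autoImplicit false

namespace Fermat.Agent.MAZ.BaseChi97

open Fermat.Agent.Flat44 Fermat.Agent.MAZ.SelCoh42 Fermat.Agent.MAZ.FlatCond42

variable {V : Type} [AddCommGroup V] [DistribMulAction GQ V]

/-- An equivariant embedding `V ↪ μ_r` for a module of order `r` on which `G_ℚ` acts through the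
exponents `k σ` of its action on `μ_r`. -/
theorem exists_embedding_of_char (r : ℕ) [Fact r.Prime] (hV : ∀ x : V, r • x = 0)
    (hcard : Nat.card V = r) (k : GQ → ℕ)
    (hk : ∀ (σ : GQ) (ζ : Qb), ζ ^ r = 1 → σ ζ = ζ ^ k σ)
    (hact : ∀ (σ : GQ) (x : V), σ • x = k σ • x) :
    ∃ φ : V → Qbˣ, Function.Injective φ ∧ (∀ x y, φ (x + y) = φ x * φ y) ∧
      ∀ (σ : GQ) (x : V), ((φ (σ • x) : Qbˣ) : Qb) = σ ((φ x : Qbˣ) : Qb) := by
  have hr : r.Prime := Fact.out
  have : NeZero r := ⟨hr.ne_zero⟩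
  have hfin : Finite V := Nat.finite_of_card_ne_zero (by rw [hcard]; exact hr.ne_zero)
  -- a generator
  have hnt : Nontrivial V := by
    rw [← Finite.one_lt_card_iff_nontrivial, hcard]
    exact hr.one_lt
  obtain ⟨w, hw⟩ := exists_ne (0 : V)
  have hord : addOrderOf w = r := addOrderOf_eq_prime (hV w) hw
  -- `ZMod r ≃ V`
  let f : ZMod r →+ V :=
    { toFun := fun a => a.val • w
      map_zero' := by rw [ZMod.val_zero, zero_nsmul]
      map_add' := fun a b => val_add_nsmul (hV w) a b }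
  have hfinj : Function.Injective f := by
    intro a b hab
    have h1 : a.val • w = b.val • w := hab
    rw [nsmul_eq_nsmul_iff_modEq, hord] at h1
    have h2 : a.val = b.val := by
      have h3 := Nat.ModEq.eq_of_lt_of_lt h1 (ZMod.val_lt a) (ZMod.val_lt b)
      exact h3
    exact ZMod.val_injective r h2
  have hfbij : Function.Bijective f :=
    hfinj.bijective_of_nat_card_le (by rw [Nat.card_zmod, hcard])
  let e : ZMod r ≃+ V := AddEquiv.ofBijective f hfbij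
  -- a primitive root of unity
  obtain ⟨ζ, hζ⟩ := Fermat.Agent.S14.Fields.exists_zeta r
  have hζ0 : ζ ≠ 0 := hζ.ne_zero hr.ne_zero
  let ζu : Qbˣ := Units.mk0 ζ hζ0
  have hζu : IsPrimitiveRoot ζu r := IsPrimitiveRoot.coe_units_iff.mp hζ
  have hζur : ζu ^ r = 1 := hζu.pow_eq_one
  let φ : V → Qbˣ := fun x => ζu ^ (e.symm x).val
  have hφ_add : ∀ x y, φ (x + y) = φ x * φ y := by
    intro x y
    show ζu ^ (e.symm (x + y)).val = ζu ^ (e.symm x).val * ζu ^ (e.symm y).val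
    rw [map_add, ZMod.val_add, ← pow_add, ← pow_eq_pow_mod _ hζur]
  have hφ_inj : Function.Injective φ := by
    intro x y hxy
    have h1 : (e.symm x).val = (e.symm y).val :=
      hζu.pow_inj (ZMod.val_lt _) (ZMod.val_lt _) hxy
    exact e.symm.injective (ZMod.val_injective r h1)
  refine ⟨φ, hφ_inj, hφ_add, fun σ x => ?_⟩
  have h1 : ((φ x : Qbˣ) : Qb) ^ r = 1 := phi_coe_pow_eq_one φ hφ_add hV x
  rw [hact σ x, phi_nsmul φ hφ_add, Units.val_pow_eq_pow_val, hk σ _ h1]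

/-- **L-r-CHI, character form** (abstract exponent function). -/
theorem sel_chi_eq_bot_of_char (r : ℕ) [Fact r.Prime] (hr2 : r ≠ 2) (hF4 : LocalF4 r)
    (N : ℕ) [NeZero N] (hrN : r ∣ N) (hV : ∀ x : V, r • x = 0) (hcard : Nat.card V = r)
    (k : GQ → ℕ) (hk : ∀ (σ : GQ) (ζ : Qb), ζ ^ r = 1 → σ ζ = ζ ^ k σ)
    (hact : ∀ (σ : GQ) (x : V), σ • x = k σ • x)
    (c : Z1 galLevel V)
    (hunr : ∀ q : ℕ, q.Prime → q ≠ r → ∃ A : ValuationSubring Qb, A.LiesOverPrime q ∧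
      ∃ v : V, ∀ σ ∈ A.inertiaSubgroupIn ℚ, c.1 σ = σ • v - v)
    (hflat : IsFlatCochain r N c.1) :
    ∃ v : V, ∀ σ : GQ, c.1 σ = σ • v - v := by
  obtain ⟨φ, hφ_inj, hφ_add, hφ_eq⟩ := exists_embedding_of_char r hV hcard k hk hact
  exact sel_chi_eq_bot_of_localF4 r hr2 hF4 N hrN hV φ hφ_inj hφ_add hφ_eq c hunr hflat

/-- **L-r-CHI, `cycloExp` form**: `V` of order `r` with `σ • x = cycloExp r σ • x` (the output of
F-SIMPLE for `χ = ExtCitation.cycloChar r`). -/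
theorem sel_chi_eq_bot_of_cycloExp (r : ℕ) [Fact r.Prime] (hr2 : r ≠ 2) (hF4 : LocalF4 r)
    (N : ℕ) [NeZero N] (hrN : r ∣ N) (hV : ∀ x : V, r • x = 0) (hcard : Nat.card V = r)
    (hχ : ∀ (σ : GQ) (x : V), σ • x = ExtCitation.cycloExp r σ • x)
    (c : Z1 galLevel V)
    (hunr : ∀ q : ℕ, q.Prime → q ≠ r → ∃ A : ValuationSubring Qb, A.LiesOverPrime q ∧
      ∃ v : V, ∀ σ ∈ A.inertiaSubgroupIn ℚ, c.1 σ = σ • v - v)
    (hflat : IsFlatCochain r N c.1) :
    ∃ v : V, ∀ σ : GQ, c.1 σ = σ • v - v :=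
  sel_chi_eq_bot_of_char r hr2 hF4 N hrN hV hcard (ExtCitation.cycloExp r)
    (fun σ _ hζ => Fermat.Agent.S14.Fields.apply_eq_pow_cycloExp r σ hζ) hχ c hunr hflat

/-- **L-r-CHI, `cycloExp` form, vanishing hypothesis**: "unramified at `q ≠ r`" given as "the cocycle
vanishes on some inertia group over `q`". -/
theorem sel_chi_eq_bot_of_cycloExp_vanish (r : ℕ) [Fact r.Prime] (hr2 : r ≠ 2) (hF4 : LocalF4 r)
    (N : ℕ) [NeZero N] (hrN : r ∣ N) (hV : ∀ x : V, r • x = 0) (hcard : Nat.card V = r)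
    (hχ : ∀ (σ : GQ) (x : V), σ • x = ExtCitation.cycloExp r σ • x)
    (c : Z1 galLevel V)
    (hunr : ∀ q : ℕ, q.Prime → q ≠ r → ∃ A : ValuationSubring Qb, A.LiesOverPrime q ∧
      ∀ σ ∈ A.inertiaSubgroupIn ℚ, c.1 σ = 0)
    (hflat : IsFlatCochain r N c.1) :
    ∃ v : V, ∀ σ : GQ, c.1 σ = σ • v - v :=
  sel_chi_eq_bot_of_cycloExp r hr2 hF4 N hrN hV hcard hχ c
    (fun q hq hqr => by
      obtain ⟨A, hA, h⟩ := hunr q hq hqr
      exact ⟨A, hA, 0, fun σ hσ => by rw [h σ hσ, smul_zero, sub_zero]⟩)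
    hflat

end Fermat.Agent.MAZ.BaseChi97
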